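import Fermat.Agent.S55.G.Rec.SAH414.Place

/-!
# S55 / layer G / block REC / STEP A, part (e) : arithmetic of `ℚˣ`  (helper414)

`prod_primeUnit_eq` : if `y ∈ ℚˣ` satisfies `y ≡ s ℓ^k t (mod ℓ^(k+e))` with `s = ±1`, `ℓ ∤ t`, then
`∏_{q ≠ ℓ} q ^ v_q(y) = ± t` in `(ℤ/ℓ^e)ˣ`.
-/

set_option autoImplicit false
set_option linter.style.haveILetI false

noncomputable section

namespace Fermat.Agent.S55.G.Rec.H414

open Fermat.Agent.S55.G.Rec Fermat.Agent.S55.H414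

/-! ## Natural numbers -/

section Nat

variable (ℓ : ℕ) [Fact ℓ.Prime] (m : ℕ)

/-- `∏_{q ∈ S} q ^ v_q(N) = N / ℓ ^ v_ℓ(N)` in `ℤ/m`, if `S` is a set of primes different from `ℓ`,
prime to `m`, containing all prime divisors `≠ ℓ` of `N`. -/
theorem prod_primeUnit_nat (hm : ∀ q : ℕ, q.Prime → q ≠ ℓ → Nat.Coprime q m) :
    ∀ N : ℕ, N ≠ 0 → ∀ S : Finset Nat.Primes,
      (∀ q : Nat.Primes, (q : ℕ) ≠ ℓ → (q : ℕ) ∣ N → q ∈ S) → (∀ q ∈ S, (q : ℕ) ≠ ℓ) →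
      ((∏ q ∈ S, primeUnit m (q : ℕ) ^ padicValNat (q : ℕ) N : (ZMod m)ˣ) : ZMod m) =
        ((ordCompl[ℓ] N : ℕ) : ZMod m) := by
  have hℓ : ℓ.Prime := Fact.out
  intro N
  induction N using Nat.recOnMul with
  | zero => intro h; exact absurd rfl h
  | one =>
    intro _ S _ _
    simp
  | prime p hp =>
    intro _ S hS hSℓ
    by_cases hpl : p = ℓ
    · subst hpl
      have h1 : ∀ q ∈ S, primeUnit m (q : ℕ) ^ padicValNat (q : ℕ) p = 1 := by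
        intro q hq
        haveI : Fact (q : ℕ).Prime := ⟨q.2⟩
        rw [padicValNat_primes (hSℓ q hq), pow_zero]
      rw [Finset.prod_eq_one h1, Units.val_one]
      have h2 : ordCompl[p] p = 1 := by
        have := Nat.ordCompl_self_pow (k := 1) hp
        rwa [pow_one] at this
      rw [h2, Nat.cast_one]
    · have hpS : (⟨p, hp⟩ : Nat.Primes) ∈ S := hS ⟨p, hp⟩ hpl (dvd_refl p)
      have h1 : ∀ q ∈ S, q ≠ (⟨p, hp⟩ : Nat.Primes) →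
          primeUnit m (q : ℕ) ^ padicValNat (q : ℕ) p = 1 := by
        intro q _ hq
        haveI : Fact (q : ℕ).Prime := ⟨q.2⟩
        haveI : Fact p.Prime := ⟨hp⟩
        have hne : (q : ℕ) ≠ p := fun h => hq (Subtype.ext h)
        rw [padicValNat_primes hne, pow_zero]
      have key : ∏ q ∈ S, primeUnit m (q : ℕ) ^ padicValNat (q : ℕ) p =
          primeUnit m p ^ padicValNat p p :=
        Finset.prod_eq_single_of_mem (⟨p, hp⟩ : Nat.Primes) hpS h1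
      refine (congrArg Units.val key).trans ?_
      haveI : Fact p.Prime := ⟨hp⟩
      rw [padicValNat_self, pow_one, coe_primeUnit (hm p hp hpl)]
      have h2 : ordCompl[ℓ] p = p := by
        have h3 : p.factorization ℓ = 0 := by
          rw [Nat.factorization_def _ hℓ]
          haveI : Fact p.Prime := ⟨hp⟩
          exact padicValNat_primes (fun h => hpl h.symm)
        rw [h3, pow_zero, Nat.div_one]
      rw [h2]
  | mul a b iha ihb =>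
    intro hab S hS hSℓ
    have ha : a ≠ 0 := fun h => hab (by rw [h, zero_mul])
    have hb : b ≠ 0 := fun h => hab (by rw [h, mul_zero])
    have h1 := iha ha S (fun q hq hd => hS q hq (Dvd.dvd.mul_right hd b)) hSℓ
    have h2 := ihb hb S (fun q hq hd => hS q hq (Dvd.dvd.mul_left hd a)) hSℓ
    have h3 : ∀ q ∈ S, primeUnit m (q : ℕ) ^ padicValNat (q : ℕ) (a * b) =
        primeUnit m (q : ℕ) ^ padicValNat (q : ℕ) a *
          primeUnit m (q : ℕ) ^ padicValNat (q : ℕ) b := by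
      intro q _
      haveI : Fact (q : ℕ).Prime := ⟨q.2⟩
      rw [padicValNat.mul ha hb, pow_add]
    rw [Finset.prod_congr rfl h3, Finset.prod_mul_distrib, Units.val_mul, h1, h2,
      Nat.ordCompl_mul, Nat.cast_mul]

end Nat

/-! ## Rational numbers -/

section Rat

variable (ℓ : ℕ) [Fact ℓ.Prime] (m : ℕ)

theorem padicValRat_eq_sub (q : ℕ) (y : ℚ) :
    padicValRat q y = (padicValNat q y.num.natAbs : ℤ) - (padicValNat q y.den : ℤ) := rfl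

theorem prod_primeUnit_rat (hm : ∀ q : ℕ, q.Prime → q ≠ ℓ → Nat.Coprime q m) (y : ℚ) (hy : y ≠ 0)
    (S : Finset Nat.Primes)
    (hS : ∀ q : Nat.Primes, (q : ℕ) ≠ ℓ → padicValRat (q : ℕ) y ≠ 0 → q ∈ S)
    (hSℓ : ∀ q ∈ S, (q : ℕ) ≠ ℓ) :
    ((∏ q ∈ S, primeUnit m (q : ℕ) ^ padicValRat (q : ℕ) y : (ZMod m)ˣ) : ZMod m) *
        ((ordCompl[ℓ] y.den : ℕ) : ZMod m) = ((ordCompl[ℓ] y.num.natAbs : ℕ) : ZMod m) := by
  have hA : y.num.natAbs ≠ 0 := Int.natAbs_ne_zero.2 (Rat.num_ne_zero.2 hy)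
  have hB : y.den ≠ 0 := y.den_nz
  have hcop : Nat.Coprime y.num.natAbs y.den := y.reduced
  have hSA : ∀ q : Nat.Primes, (q : ℕ) ≠ ℓ → (q : ℕ) ∣ y.num.natAbs → q ∈ S := by
    intro q hq hd
    refine hS q hq ?_
    haveI : Fact (q : ℕ).Prime := ⟨q.2⟩
    have h1 : ¬ (q : ℕ) ∣ y.den := fun h =>
      q.2.one_lt.ne' (Nat.dvd_one.1 (hcop ▸ Nat.dvd_gcd hd h))
    have h2 : 1 ≤ padicValNat (q : ℕ) y.num.natAbs := one_le_padicValNat_of_dvd hA hd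
    rw [padicValRat_eq_sub, padicValNat.eq_zero_of_not_dvd h1]
    omega
  have hSB : ∀ q : Nat.Primes, (q : ℕ) ≠ ℓ → (q : ℕ) ∣ y.den → q ∈ S := by
    intro q hq hd
    refine hS q hq ?_
    haveI : Fact (q : ℕ).Prime := ⟨q.2⟩
    have h1 : ¬ (q : ℕ) ∣ y.num.natAbs := fun h =>
      q.2.one_lt.ne' (Nat.dvd_one.1 (hcop ▸ Nat.dvd_gcd h hd))
    have h2 : 1 ≤ padicValNat (q : ℕ) y.den := one_le_padicValNat_of_dvd hB hd
    rw [padicValRat_eq_sub, padicValNat.eq_zero_of_not_dvd h1]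
    omega
  have h1 := prod_primeUnit_nat ℓ m hm _ hA S hSA hSℓ
  have h2 := prod_primeUnit_nat ℓ m hm _ hB S hSB hSℓ
  have h3 : (∏ q ∈ S, primeUnit m (q : ℕ) ^ padicValRat (q : ℕ) y) *
      (∏ q ∈ S, primeUnit m (q : ℕ) ^ padicValNat (q : ℕ) y.den) =
      ∏ q ∈ S, primeUnit m (q : ℕ) ^ padicValNat (q : ℕ) y.num.natAbs := by
    rw [← Finset.prod_mul_distrib]
    refine Finset.prod_congr rfl fun q _ => ?_
    rw [padicValRat_eq_sub, zpow_sub, zpow_natCast, zpow_natCast, inv_mul_cancel_right]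
  rw [← h1, ← h2, ← Units.val_mul]
  exact congrArg Units.val h3

theorem padicNorm_prime_zpow (k : ℤ) : padicNorm ℓ ((ℓ : ℚ) ^ k) = (ℓ : ℚ) ^ (-k) := by
  have hℓ : ℓ.Prime := Fact.out
  have hL0 : (ℓ : ℚ) ≠ 0 := by exact_mod_cast hℓ.ne_zero
  rw [padicNorm.eq_zpow_of_nonzero (zpow_ne_zero _ hL0)]
  congr 2
  have h1 : padicValRat ℓ (ℓ : ℚ) = 1 := by
    rw [padicValRat.of_nat, padicValNat_self, Nat.cast_one]
  rw [padicValRat.zpow, h1, mul_one]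

/-- norm of the approximating constant -/
theorem padicNorm_const (k : ℤ) (s : ℤˣ) (t : ℕ) (ht : ¬ ℓ ∣ t) :
    padicNorm ℓ (((s : ℤ) : ℚ) * (ℓ : ℚ) ^ k * (t : ℚ)) = (ℓ : ℚ) ^ (-k) := by
  have hℓ : ℓ.Prime := Fact.out
  have hs : padicNorm ℓ ((s : ℤ) : ℚ) = 1 := by
    rcases Int.units_eq_one_or s with rfl | rfl
    · simp
    · simp
  have hk : padicNorm ℓ ((ℓ : ℚ) ^ k) = (ℓ : ℚ) ^ (-k) := padicNorm_prime_zpow ℓ k
  rw [padicNorm.mul, padicNorm.mul, hs, hk, (padicNorm.nat_eq_one_iff t).2 ht, one_mul, mul_one]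

/-- From the `ℓ`-adic approximation `y ≡ s ℓ^k t (mod ℓ^(k+e))` to a congruence mod `ℓ^e` between
the prime-to-`ℓ` parts of numerator and denominator. -/
theorem approx_congr (y : ℚ) (hy : y ≠ 0) (k : ℤ) (s : ℤˣ) (t : ℕ) (ht : ¬ ℓ ∣ t) {e : ℕ}
    (he : 0 < e)
    (happ : padicNorm ℓ (y - ((s : ℤ) : ℚ) * (ℓ : ℚ) ^ k * (t : ℚ)) ≤ (ℓ : ℚ) ^ (-(k + e))) :
    ∃ ε : ℤˣ, ((ordCompl[ℓ] y.num.natAbs : ℕ) : ZMod (ℓ ^ e)) =
      ((ε : ℤ) : ZMod (ℓ ^ e)) * (t : ZMod (ℓ ^ e)) * ((ordCompl[ℓ] y.den : ℕ) : ZMod (ℓ ^ e)) := by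
  have hℓ : ℓ.Prime := Fact.out
  have hL1 : (1 : ℚ) < (ℓ : ℚ) := by exact_mod_cast hℓ.one_lt
  have hL0 : (ℓ : ℚ) ≠ 0 := by positivity
  have hA : y.num.natAbs ≠ 0 := Int.natAbs_ne_zero.2 (Rat.num_ne_zero.2 hy)
  have hB : y.den ≠ 0 := y.den_nz
  set c : ℚ := ((s : ℤ) : ℚ) * (ℓ : ℚ) ^ k * (t : ℚ) with hc
  have hcn : padicNorm ℓ c = (ℓ : ℚ) ^ (-k) := padicNorm_const ℓ k s t ht
  -- the valuation of `y` is `k`
  have hlt : padicNorm ℓ (y - c) < padicNorm ℓ c := by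
    rw [hcn]
    refine lt_of_le_of_lt happ ?_
    apply zpow_lt_zpow_right₀ hL1
    have : (0 : ℤ) < e := by exact_mod_cast he
    omega
  have hyn : padicNorm ℓ y = (ℓ : ℚ) ^ (-k) := by
    have h1 : y = (y - c) + c := by ring
    rw [h1, padicNorm.add_eq_max_of_ne hlt.ne, max_eq_right hlt.le, hcn]
  have hval : padicValRat ℓ y = k := by
    rw [padicNorm.eq_zpow_of_nonzero hy] at hyn
    have := zpow_right_injective₀ (by positivity : (0 : ℚ) < ℓ) hL1.ne' hyn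
    simpa using this
  -- decompositions
  have hAe : (ordProj[ℓ] y.num.natAbs) * (ordCompl[ℓ] y.num.natAbs) = y.num.natAbs :=
    Nat.ordProj_mul_ordCompl_eq_self _ _
  have hBe : (ordProj[ℓ] y.den) * (ordCompl[ℓ] y.den) = y.den :=
    Nat.ordProj_mul_ordCompl_eq_self _ _
  have hk : k = (y.num.natAbs.factorization ℓ : ℤ) - (y.den.factorization ℓ : ℤ) := by
    rw [← hval, Nat.factorization_def _ hℓ, Nat.factorization_def _ hℓ]; rfl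
  obtain ⟨sgn, hsgn⟩ : ∃ sgn : ℤˣ, y.num = (sgn : ℤ) * (y.num.natAbs : ℤ) := by
    rcases Int.natAbs_eq y.num with h | h
    · exact ⟨1, by rw [Units.val_one, one_mul]; exact h⟩
    · exact ⟨-1, by rw [Units.val_neg, Units.val_one, neg_one_mul]; exact h⟩
  refine ⟨sgn * s, ?_⟩
  -- the integer `z = A' - ε t B'`
  set A' : ℕ := ordCompl[ℓ] y.num.natAbs with hA'
  set B' : ℕ := ordCompl[ℓ] y.den with hB'
  set α : ℕ := y.num.natAbs.factorization ℓ with hα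
  set β : ℕ := y.den.factorization ℓ with hβ
  have hB'0 : (B' : ℚ) ≠ 0 := by
    have : 0 < B' := Nat.ordCompl_pos ℓ hB
    positivity
  have hyq : y = ((sgn : ℤ) : ℚ) * ((ℓ : ℚ) ^ α * (A' : ℚ)) / ((ℓ : ℚ) ^ β * (B' : ℚ)) := by
    have h1 : y = (y.num : ℚ) / (y.den : ℚ) := (Rat.num_div_den y).symm
    have h2 : (y.num : ℚ) = ((sgn : ℤ) : ℚ) * ((ℓ : ℚ) ^ α * (A' : ℚ)) := by
      conv_lhs => rw [hsgn]
      rw [Int.cast_mul, Int.cast_natCast, ← hAe]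
      push_cast
      ring
    have h3 : (y.den : ℚ) = (ℓ : ℚ) ^ β * (B' : ℚ) := by
      conv_lhs => rw [← hBe]
      push_cast
      ring
    rw [← h2, ← h3]
    exact h1
  have hz : (((A' : ℤ) - ((sgn * s : ℤˣ) : ℤ) * (t : ℤ) * (B' : ℤ) : ℤ) : ℚ) =
      ((sgn : ℤ) : ℚ) * (B' : ℚ) * (ℓ : ℚ) ^ (-k) * (y - c) := by
    have hkk : (ℓ : ℚ) ^ (-k) = (ℓ : ℚ) ^ β / (ℓ : ℚ) ^ α := by
      rw [hk, neg_sub, zpow_sub₀ hL0, zpow_natCast, zpow_natCast]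
    have hkk' : (ℓ : ℚ) ^ k = (ℓ : ℚ) ^ α / (ℓ : ℚ) ^ β := by
      rw [hk, zpow_sub₀ hL0, zpow_natCast, zpow_natCast]
    have hα0 : (ℓ : ℚ) ^ α ≠ 0 := pow_ne_zero _ hL0
    have hβ0 : (ℓ : ℚ) ^ β ≠ 0 := pow_ne_zero _ hL0
    rw [hc, hkk, hkk']
    conv_rhs => rw [hyq]
    rcases Int.units_eq_one_or sgn with rfl | rfl <;>
    rcases Int.units_eq_one_or s with rfl | rfl <;>
    · push_cast
      field_simp
      try ring
  have hnorm : padicNorm ℓ (((A' : ℤ) - ((sgn * s : ℤˣ) : ℤ) * (t : ℤ) * (B' : ℤ) : ℤ) : ℚ) ≤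
      (ℓ : ℚ) ^ (-(e : ℤ)) := by
    rw [hz, padicNorm.mul, padicNorm.mul, padicNorm.mul]
    have hs : padicNorm ℓ ((sgn : ℤ) : ℚ) = 1 := by
      rcases Int.units_eq_one_or sgn with rfl | rfl
      · simp
      · simp
    have hb : padicNorm ℓ (B' : ℚ) = 1 :=
      (padicNorm.nat_eq_one_iff B').2 (Nat.not_dvd_ordCompl hℓ hB)
    have hk' : padicNorm ℓ ((ℓ : ℚ) ^ (-k)) = (ℓ : ℚ) ^ k := by
      rw [padicNorm_prime_zpow, neg_neg]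
    rw [hs, hb, hk', one_mul, one_mul]
    calc (ℓ : ℚ) ^ k * padicNorm ℓ (y - c) ≤ (ℓ : ℚ) ^ k * (ℓ : ℚ) ^ (-(k + e)) :=
          mul_le_mul_of_nonneg_left happ (zpow_nonneg (by positivity) _)
      _ = (ℓ : ℚ) ^ (-(e : ℤ)) := by
          rw [← zpow_add₀ hL0]
          congr 1
          ring
  have hdvd : ((ℓ ^ e : ℕ) : ℤ) ∣ ((A' : ℤ) - ((sgn * s : ℤˣ) : ℤ) * (t : ℤ) * (B' : ℤ)) :=
    padicNorm.dvd_iff_norm_le.2 hnorm
  have h0 : ((((A' : ℤ) - ((sgn * s : ℤˣ) : ℤ) * (t : ℤ) * (B' : ℤ) : ℤ)) : ZMod (ℓ ^ e)) = 0 :=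
    (ZMod.intCast_zmod_eq_zero_iff_dvd _ _).2 hdvd
  have h1 : ((A' : ℕ) : ZMod (ℓ ^ e)) - (((sgn * s : ℤˣ) : ℤ) : ZMod (ℓ ^ e)) * (t : ZMod (ℓ ^ e)) *
      ((B' : ℕ) : ZMod (ℓ ^ e)) = 0 := by
    rw [← h0]
    push_cast
    ring
  exact sub_eq_zero.1 h1

/-- **(e)** `∏_{q ≠ ℓ} q ^ v_q(y) = ± t` in `ℤ/ℓ^e`. -/
theorem prod_primeUnit_eq (y : ℚ) (hy : y ≠ 0) (k : ℤ) (s : ℤˣ) (t : ℕ) (ht : ¬ ℓ ∣ t) {e : ℕ}
    (he : 0 < e)
    (happ : padicNorm ℓ (y - ((s : ℤ) : ℚ) * (ℓ : ℚ) ^ k * (t : ℚ)) ≤ (ℓ : ℚ) ^ (-(k + e)))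
    (S : Finset Nat.Primes)
    (hS : ∀ q : Nat.Primes, (q : ℕ) ≠ ℓ → padicValRat (q : ℕ) y ≠ 0 → q ∈ S)
    (hSℓ : ∀ q ∈ S, (q : ℕ) ≠ ℓ) :
    ∃ ε : ℤˣ, ((∏ q ∈ S, primeUnit (ℓ ^ e) (q : ℕ) ^ padicValRat (q : ℕ) y : (ZMod (ℓ ^ e))ˣ) :
        ZMod (ℓ ^ e)) = ((ε : ℤ) : ZMod (ℓ ^ e)) * (t : ZMod (ℓ ^ e)) := by
  have hℓ : ℓ.Prime := Fact.out
  have hm : ∀ q : ℕ, q.Prime → q ≠ ℓ → Nat.Coprime q (ℓ ^ e) := fun q hq hne =>
    Nat.Coprime.pow_right e ((Nat.coprime_primes hq hℓ).2 hne)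
  obtain ⟨ε, hε⟩ := approx_congr ℓ y hy k s t ht he happ
  have h1 := prod_primeUnit_rat ℓ (ℓ ^ e) hm y hy S hS hSℓ
  refine ⟨ε, ?_⟩
  have hB : y.den ≠ 0 := y.den_nz
  have hu : IsUnit (((ordCompl[ℓ] y.den : ℕ)) : ZMod (ℓ ^ e)) :=
    (ZMod.isUnit_iff_coprime _ _).2 (Nat.Coprime.pow_right e (Nat.coprime_ordCompl hℓ hB).symm)
  apply hu.mul_right_cancel
  rw [h1, hε]

end Rat

end Fermat.Agent.S55.G.Rec.H414
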