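import Fermat.Agent.S55.G.Rec.SAH414.Roots
import Fermat.Agent.S55.G.Rec.L4L6H854

/-!
# S55 / layer G / block REC / STEP A, part (c)+(d) : the `ℓ`-adic half  (helper414)

`cycloNormAtL_of (K1) (K5) (L5) (G1) : CycloNormAtLSpec` :

for `U` open, `χ` a level-constant character of `U` cyclotomic mod `m = ℓ ^ e` (`ℓ` odd, `e > 0`),
`a ∈ Kˣ` (`K = ℚ̄^U`) such that `a ∪ δχ` is locally trivial at all places above `ℓ`, and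
`y = N_{K/ℚ}(a) ∈ ℚˣ`:  there are `k : ℤ`, `s = ±1`, `t : ℕ` and `σ ∈ U` with `χ σ = 1`, `σ` acting on
`μ_m(ℚ̄)` by `ζ ↦ ζ ^ t`, and `y ≡ s ℓ^k t  (mod ℓ^(k+e))` in `ℚ̄_ℓ`.
-/

set_option autoImplicit false
set_option linter.style.haveILetI false

noncomputable section

namespace Fermat.Agent.S55.G.Rec.H414

open groupCohomology Fermat.Agent.S55.G.Rec Fermat.Agent.S55.H414

local notation "Qb" => AlgebraicClosure ℚ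
local notation "GQ" => (AlgebraicClosure ℚ ≃ₐ[ℚ] AlgebraicClosure ℚ)

/-! ## Ultrametric approximation of products -/

section Ultra

variable {K : Type*} [NormedField K] [IsUltrametricDist K]

/-- If `x ≡ c mod ρ^(k+e)`, `X ≡ C mod ρ^(k'+e)` with `‖c‖ = ρ^k`, `‖C‖ = ρ^k'` then
`x X ≡ c C mod ρ^(k+k'+e)`. -/
theorem norm_mul_sub_mul_le {x X c C : K} {ρ : ℝ} {k k' : ℤ} {e : ℕ} (hρ0 : 0 < ρ) (hρ1 : ρ ≤ 1)
    (hc : ‖c‖ = ρ ^ k) (hC : ‖C‖ = ρ ^ k') (hx : ‖x - c‖ ≤ ρ ^ (k + e))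
    (hX : ‖X - C‖ ≤ ρ ^ (k' + e)) : ‖x * X - c * C‖ ≤ ρ ^ (k + k' + e) := by
  have hρe : ρ ^ (e : ℤ) ≤ 1 := by
    rw [zpow_natCast]
    exact pow_le_one₀ hρ0.le hρ1
  have hxn : ‖x‖ ≤ ρ ^ k := by
    have h1 : x = (x - c) + c := by ring
    rw [h1]
    refine (IsUltrametricDist.norm_add_le_max _ _).trans (max_le ?_ hc.le)
    refine hx.trans ?_
    rw [zpow_add₀ hρ0.ne']
    exact mul_le_of_le_one_right (zpow_nonneg hρ0.le _) hρe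
  have h2 : x * X - c * C = x * (X - C) + (x - c) * C := by ring
  rw [h2]
  refine (IsUltrametricDist.norm_add_le_max _ _).trans (max_le ?_ ?_)
  · rw [norm_mul]
    calc ‖x‖ * ‖X - C‖ ≤ ρ ^ k * ρ ^ (k' + e) :=
          mul_le_mul hxn hX (norm_nonneg _) (zpow_nonneg hρ0.le _)
      _ = ρ ^ (k + k' + e) := by rw [← zpow_add₀ hρ0.ne']; congr 1; ring
  · rw [norm_mul, hC]
    calc ‖x - c‖ * ρ ^ k' ≤ ρ ^ (k + e) * ρ ^ k' :=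
          mul_le_mul_of_nonneg_right hx (zpow_nonneg hρ0.le _)
      _ = ρ ^ (k + k' + e) := by rw [← zpow_add₀ hρ0.ne']; congr 1; ring

end Ultra

section Local

variable {ℓ : ℕ} [Fact ℓ.Prime]

local notation "Gl" => (PadicAlgCl ℓ ≃ₐ[ℚ_[ℓ]] PadicAlgCl ℓ)

theorem norm_prime_padicAlgCl_pos : 0 < ‖(ℓ : PadicAlgCl ℓ)‖ := by
  rw [norm_pos_iff]
  exact_mod_cast (Fact.out : ℓ.Prime).ne_zero

theorem norm_prime_padicAlgCl_le_one : ‖(ℓ : PadicAlgCl ℓ)‖ ≤ 1 := by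
  have h : (ℓ : PadicAlgCl ℓ) = algebraMap ℚ_[ℓ] (PadicAlgCl ℓ) (ℓ : ℚ_[ℓ]) := by simp
  rw [h, PadicAlgCl.norm_extends]
  exact Padic.norm_p_lt_one.le

/-- The exponent of an element acting on `μ_{ℓ^e}`, `e > 0`, is prime to `ℓ`. -/
theorem LActsBy.not_dvd {e : ℕ} (he : 0 < e) {τ : Gl} {t : ℕ} (h : LActsBy ℓ (ℓ ^ e) τ t) :
    ¬ ℓ ∣ t := by
  haveI : NeZero (ℓ ^ e) := ⟨pow_ne_zero _ (Fact.out : ℓ.Prime).ne_zero⟩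
  have h1 := (actsBy_iff (ℓ ^ e) _ t).1 h.global
  have h2 : IsUnit ((t : ℕ) : ZMod (ℓ ^ e)) := by
    rw [← h1]
    exact Units.isUnit _
  have h3 : Nat.Coprime t (ℓ ^ e) := (ZMod.isUnit_iff_coprime t (ℓ ^ e)).1 h2
  intro hdvd
  have h4 : ℓ ∣ Nat.gcd t (ℓ ^ e) := Nat.dvd_gcd hdvd (dvd_pow_self ℓ he.ne')
  rw [h3] at h4
  exact (Fact.out : ℓ.Prime).one_lt.ne' (Nat.dvd_one.1 h4)

/-- The norm of the approximating constant `s ℓ^k t`. -/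
theorem norm_approx_const {e : ℕ} (he : 0 < e) {τ : Gl} {t : ℕ} (h : LActsBy ℓ (ℓ ^ e) τ t)
    (k : ℤ) (s : ℤˣ) :
    ‖((s : ℤ) : PadicAlgCl ℓ) * (ℓ : PadicAlgCl ℓ) ^ k * (t : PadicAlgCl ℓ)‖ =
      ‖(ℓ : PadicAlgCl ℓ)‖ ^ k := by
  have hs : ‖((s : ℤ) : PadicAlgCl ℓ)‖ = 1 := by
    rcases Int.units_eq_one_or s with rfl | rfl
    · simp
    · simp
  rw [norm_mul, norm_mul, hs, H854.norm_natCast_padicAlgCl_eq_one ℓ (h.not_dvd he), one_mul,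
    mul_one, norm_zpow]

/-! ## One place above `ℓ` -/

/-- At a place `v = (ℓ, g)` where `a ∪ δχ` is trivial, the local norm of `a` to `ℚ_ℓ` is
`≡ s ℓ^k t`, `t` the cyclotomic value of an element of `W`. -/
theorem exists_local_approx (hK1 : CupLocSpec) (hK5 : LocalNormSpec) (hL5 : LocalCycloNormSpec)
    {U : Subgroup GQ} (hU : IsOpenQ U) (hℓ : ℓ ≠ 2) {e : ℕ} (he : 0 < e) {n : ℕ} (hn : n ≠ 0)
    (χ : ↥U →* Multiplicative (ZMod n)) (hχ : IsLevelConstant₁ U.subtype χ)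
    {a : Qbˣ} (ha : GFixed U a) (g : GQ) (h0 : locBr ℓ g U (gcc U n χ a) = 0) :
    ∃ (k : ℤ) (s : ℤˣ) (t : ℕ) (τ : Gl), τ ∈ cycW ℓ U χ (ℓ ^ e) ∧ LActsBy ℓ (ℓ ^ e) τ t ∧
      ‖((relNorm (locSub ℓ g U) (locPushMul ℓ g a) : (PadicAlgCl ℓ)ˣ) : PadicAlgCl ℓ) -
          ((s : ℤ) : PadicAlgCl ℓ) * (ℓ : PadicAlgCl ℓ) ^ k * (t : PadicAlgCl ℓ)‖
        ≤ ‖(ℓ : PadicAlgCl ℓ)‖ ^ (k + e) := by
  haveI : NeZero n := ⟨hn⟩
  haveI : NeZero (ℓ ^ e) := ⟨pow_ne_zero _ (Fact.out : ℓ.Prime).ne_zero⟩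
  obtain ⟨⟨hlc, hfix⟩, hloc⟩ := hK1 ℓ g U n χ a hn hχ ha
  rw [hloc] at h0
  have hV : IsOpenL ℓ (locSub ℓ g U) := H124.isOpenL_locSub124 ℓ hU g
  obtain ⟨b, hb, hab⟩ := hK5 ℓ (locSub ℓ g U) hV n (χ.comp (locHom ℓ g U)) hlc _ hfix h0
  have hHW : (χ.comp (locHom ℓ g U)).ker.map (locSub ℓ g U).subtype ≤ cycW ℓ U χ (ℓ ^ e) :=
    ker_map_le_cycW U χ (ℓ ^ e) g
  haveI : (locSub ℓ g U).FiniteIndex := RelNormH707.finiteIndex_of_isOpenL ℓ hV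
  haveI : (χ.comp (locHom ℓ g U)).ker.FiniteIndex := Subgroup.finiteIndex_ker _
  haveI hHfi : ((χ.comp (locHom ℓ g U)).ker.map (locSub ℓ g U).subtype).FiniteIndex :=
    RelNormH707.finiteIndex_map _ _
  haveI : (cycW ℓ U χ (ℓ ^ e)).FiniteIndex := Subgroup.finiteIndex_of_le hHW
  have hb' : RelNormH707.FixedBy
      ((χ.comp (locHom ℓ g U)).ker.map (locSub ℓ g U).subtype) b := hb
  have e1 : relNorm (locSub ℓ g U) (locPushMul ℓ g a) =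
      relNorm ((χ.comp (locHom ℓ g U)).ker.map (locSub ℓ g U).subtype) b := by
    rw [hab]
    exact RelNormH707.relNorm_trans _ _ hb'
  have hmap : (((χ.comp (locHom ℓ g U)).ker.map (locSub ℓ g U).subtype).subgroupOf
      (cycW ℓ U χ (ℓ ^ e))).map (cycW ℓ U χ (ℓ ^ e)).subtype =
      (χ.comp (locHom ℓ g U)).ker.map (locSub ℓ g U).subtype :=
    Subgroup.map_subgroupOf_eq_of_le hHW
  have hb'' : RelNormH707.FixedBy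
      ((((χ.comp (locHom ℓ g U)).ker.map (locSub ℓ g U).subtype).subgroupOf
        (cycW ℓ U χ (ℓ ^ e))).map (cycW ℓ U χ (ℓ ^ e)).subtype) b := by
    rw [hmap]
    exact hb'
  have e2 : relNorm (cycW ℓ U χ (ℓ ^ e)) (relNorm (G := ↥(cycW ℓ U χ (ℓ ^ e)))
      (((χ.comp (locHom ℓ g U)).ker.map (locSub ℓ g U).subtype).subgroupOf
        (cycW ℓ U χ (ℓ ^ e))) b) =
      relNorm ((χ.comp (locHom ℓ g U)).ker.map (locSub ℓ g U).subtype) b := by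
    rw [RelNormH707.relNorm_trans _ _ hb'', hmap]
  have hfixW : LFixed ℓ (cycW ℓ U χ (ℓ ^ e)) (relNorm (G := ↥(cycW ℓ U χ (ℓ ^ e)))
      (((χ.comp (locHom ℓ g U)).ker.map (locSub ℓ g U).subtype).subgroupOf
        (cycW ℓ U χ (ℓ ^ e))) b) :=
    RelNormH707.fixedBy_relNorm_sub _ _ hb''
  obtain ⟨k, s, t, τ, hτW, hτ, hnorm⟩ :=
    hL5 ℓ hℓ e he (cycW ℓ U χ (ℓ ^ e)) (fun τ hτ => mem_cycW_of_fixes U χ hτ) _ hfixW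
  refine ⟨k, s, t, τ, hτW, hτ, ?_⟩
  rw [e1, ← e2]
  exact hnorm

/-! ## All places above `ℓ` -/

theorem exists_prod_approx (hK1 : CupLocSpec) (hK5 : LocalNormSpec) (hL5 : LocalCycloNormSpec)
    {U : Subgroup GQ} (hU : IsOpenQ U) (hℓ : ℓ ≠ 2) {e : ℕ} (he : 0 < e) {n : ℕ} (hn : n ≠ 0)
    (χ : ↥U →* Multiplicative (ZMod n)) (hχ : IsLevelConstant₁ U.subtype χ)
    {a : Qbˣ} (ha : GFixed U a) (h0 : ∀ g : GQ, locBr ℓ g U (gcc U n χ a) = 0) (R : Finset GQ) :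
    ∃ (k : ℤ) (s : ℤˣ) (t : ℕ) (τ : Gl), τ ∈ cycW ℓ U χ (ℓ ^ e) ∧ LActsBy ℓ (ℓ ^ e) τ t ∧
      ‖((∏ r ∈ R, relNorm (locSub ℓ r U) (locPushMul ℓ r a) : (PadicAlgCl ℓ)ˣ) :
            PadicAlgCl ℓ) -
          ((s : ℤ) : PadicAlgCl ℓ) * (ℓ : PadicAlgCl ℓ) ^ k * (t : PadicAlgCl ℓ)‖
        ≤ ‖(ℓ : PadicAlgCl ℓ)‖ ^ (k + e) := by
  classical
  induction R using Finset.induction_on with
  | empty =>
    refine ⟨0, 1, 1, 1, one_mem _, lActsBy_one _, ?_⟩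
    simp only [Finset.prod_empty, Units.val_one, Int.cast_one, zpow_zero, Nat.cast_one, mul_one,
      sub_self, norm_zero]
    exact zpow_nonneg (norm_nonneg _) _
  | insert r R hr ih =>
    obtain ⟨k₂, s₂, t₂, τ₂, hW₂, hτ₂, hn₂⟩ := ih
    obtain ⟨k₁, s₁, t₁, τ₁, hW₁, hτ₁, hn₁⟩ :=
      exists_local_approx hK1 hK5 hL5 hU hℓ he hn χ hχ ha r (h0 r)
    refine ⟨k₁ + k₂, s₁ * s₂, t₁ * t₂, τ₁ * τ₂, mul_mem hW₁ hW₂, hτ₁.mul hτ₂, ?_⟩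
    rw [Finset.prod_insert hr, Units.val_mul]
    have hℓ0 : (ℓ : PadicAlgCl ℓ) ≠ 0 := by
      exact_mod_cast (Fact.out : ℓ.Prime).ne_zero
    have key := norm_mul_sub_mul_le (norm_prime_padicAlgCl_pos (ℓ := ℓ))
      norm_prime_padicAlgCl_le_one (norm_approx_const he hτ₁ k₁ s₁)
      (norm_approx_const he hτ₂ k₂ s₂) hn₁ hn₂
    have hc : (((s₁ * s₂ : ℤˣ) : ℤ) : PadicAlgCl ℓ) * (ℓ : PadicAlgCl ℓ) ^ (k₁ + k₂) *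
        ((t₁ * t₂ : ℕ) : PadicAlgCl ℓ) =
        (((s₁ : ℤ) : PadicAlgCl ℓ) * (ℓ : PadicAlgCl ℓ) ^ k₁ * (t₁ : PadicAlgCl ℓ)) *
          (((s₂ : ℤ) : PadicAlgCl ℓ) * (ℓ : PadicAlgCl ℓ) ^ k₂ * (t₂ : PadicAlgCl ℓ)) := by
      rw [Units.val_mul, Int.cast_mul, Nat.cast_mul, zpow_add₀ hℓ0]
      ring
    rw [hc]
    exact key

/-! ## The statement and the theorem -/

end Local

/-- (SA3) the `ℓ`-adic half of STEP A (blueprint §1b (c)+(d)). -/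
def CycloNormAtLSpec : Prop :=
  ∀ (U : Subgroup GQ), IsOpenQ U → ∀ (ℓ : ℕ) [Fact ℓ.Prime], ℓ ≠ 2 → ∀ (e : ℕ), 0 < e →
    ∀ (n : ℕ), n ≠ 0 → ∀ (χ : ↥U →* Multiplicative (ZMod n)),
    IsLevelConstant₁ U.subtype χ →
    ∀ a : Qbˣ, GFixed U a →
    (∀ g : GQ, locBr ℓ g U (gcc U n χ a) = 0) →
    ∀ y : ℚˣ, ((relNorm U a : Qbˣ) : Qb) = algebraMap ℚ Qb (y : ℚ) →
    ∀ R : Finset GQ, IsDoubleCosetReps U (localGaloisToGlobal ℓ).range R →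
    ∃ (k : ℤ) (s : ℤˣ) (t : ℕ) (σ : ↥U), χ σ = 1 ∧ ActsBy (ℓ ^ e) (σ : GQ) t ∧ ¬ ℓ ∣ t ∧
      ‖algebraMap ℚ (PadicAlgCl ℓ) (y : ℚ) -
          ((s : ℤ) : PadicAlgCl ℓ) * (ℓ : PadicAlgCl ℓ) ^ k * (t : PadicAlgCl ℓ)‖
        ≤ ‖(ℓ : PadicAlgCl ℓ)‖ ^ (k + e)

theorem cycloNormAtL_of (hK1 : CupLocSpec) (hK5 : LocalNormSpec) (hL5 : LocalCycloNormSpec)
    (hG1 : OrbitNormSpec) : CycloNormAtLSpec := by
  intro U hU ℓ _ hℓ e he n hn χ hχ a ha h0 y hy R hR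
  obtain ⟨k, s, t, τ, hτW, hτ, hnorm⟩ :=
    exists_prod_approx hK1 hK5 hL5 hU hℓ he hn χ hχ ha h0 R
  obtain ⟨σ, hσ, hσt⟩ := exists_of_mem_cycW hτW hτ
  refine ⟨k, s, t, σ, hσ, hσt, hτ.not_dvd he, ?_⟩
  have h1 := (hG1 U hU a ha).2 ℓ R hR
  have h2 : ((locPushMul ℓ 1 (relNorm U a) : (PadicAlgCl ℓ)ˣ) : PadicAlgCl ℓ) =
      algebraMap ℚ (PadicAlgCl ℓ) (y : ℚ) := by
    rw [locPushMul_coe, inv_one, AlgEquiv.one_apply, hy]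
    exact (padicEmbedding ℓ).commutes (y : ℚ)
  rw [← h2, h1]
  exact hnorm

end Fermat.Agent.S55.G.Rec.H414
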