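import Fermat.Agent.S55.G.Rec.SAH414.Roots

/-!
# S55 / layer G / block REC / STEP A, parts (a)+(b) : places away from `ℓ`  (helper414)

* `cvHom n : ZMod n →+ ℚ/ℤ`, `x ↦ x.val / n`.
* `exists_frob_at` : at a place `v = (q, r)`, `q ∤ m`, the local invariant of `a ∪ δχ` is
  `cvHom (χ ρ)` for some `ρ ∈ U` with `cycloPow m ρ = q ^ vdeg_v(a)`.
* `exists_sum_at` : the same for the sum over a finite set of places above `q`.
-/

set_option autoImplicit false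
set_option linter.style.haveILetI false

noncomputable section

namespace Fermat.Agent.S55.G.Rec.H414

open groupCohomology Fermat.Agent.S55.G.Rec Fermat.Agent.S55.H414

local notation "Qb" => AlgebraicClosure ℚ
local notation "GQ" => (AlgebraicClosure ℚ ≃ₐ[ℚ] AlgebraicClosure ℚ)

/-! ## The embedding `ℤ/n → ℚ/ℤ` -/

/-- `ℤ → ℚ/ℤ`, `z ↦ z / n`. -/
def cvInt (n : ℕ) : ℤ →+ AddCircle (1 : ℚ) :=
  (QuotientAddGroup.mk' (AddSubgroup.zmultiples (1 : ℚ))).comp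
    ((AddMonoidHom.mulRight ((n : ℚ)⁻¹)).comp (Int.castAddHom ℚ))

theorem cvInt_apply (n : ℕ) (z : ℤ) : cvInt n z = (((z : ℚ) * (n : ℚ)⁻¹ : ℚ) : AddCircle (1 : ℚ)) :=
  rfl

theorem cvInt_self (n : ℕ) [NeZero n] : cvInt n (n : ℤ) = 0 := by
  rw [cvInt_apply]
  have h : ((n : ℤ) : ℚ) * (n : ℚ)⁻¹ = 1 := by
    rw [Int.cast_natCast]
    exact mul_inv_cancel₀ (Nat.cast_ne_zero.2 (NeZero.ne n))
  rw [h]
  exact (QuotientAddGroup.eq_zero_iff _).2 (AddSubgroup.mem_zmultiples _)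

/-- `ℤ/n → ℚ/ℤ`, `x ↦ x.val / n`. -/
def cvHom (n : ℕ) [NeZero n] : ZMod n →+ AddCircle (1 : ℚ) :=
  ZMod.lift n ⟨cvInt n, cvInt_self n⟩

theorem cvHom_intCast (n : ℕ) [NeZero n] (z : ℤ) : cvHom n (z : ZMod n) = cvInt n z :=
  ZMod.lift_coe n _ z

theorem cvHom_apply (n : ℕ) [NeZero n] (x : ZMod n) :
    cvHom n x = ((((x.val : ℚ) / (n : ℚ) : ℚ)) : AddCircle (1 : ℚ)) := by
  have h : x = ((x.val : ℤ) : ZMod n) := by
    rw [Int.cast_natCast, ZMod.natCast_zmod_val]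
  conv_lhs => rw [h]
  rw [cvHom_intCast, cvInt_apply, Int.cast_natCast, div_eq_mul_inv]

/-- `k · x.val / n = cvHom (k • x)`. -/
theorem coe_mul_val_div (n : ℕ) [NeZero n] (k : ℤ) (x : ZMod n) :
    ((((k : ℚ) * (x.val : ℚ) / (n : ℚ) : ℚ)) : AddCircle (1 : ℚ)) = cvHom n (k • x) := by
  rw [map_zsmul, cvHom_apply]
  rw [← QuotientAddGroup.mk_zsmul]
  congr 1
  rw [zsmul_eq_mul, mul_div_assoc]

/-! ## One place away from `ℓ` -/

section Place

variable (I : LocalInvSystem)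

/-- The unit `q mod m` for a prime `q ∤ m` (junk value `1` otherwise). -/
def primeUnit (m q : ℕ) : (ZMod m)ˣ :=
  if h : Nat.Coprime q m then ZMod.unitOfCoprime q h else 1

theorem coe_primeUnit {m q : ℕ} (h : Nat.Coprime q m) : ((primeUnit m q : (ZMod m)ˣ) : ZMod m) = q := by
  unfold primeUnit
  rw [dif_pos h]
  rfl

theorem cycloPow_eq_primeUnit_pow {m : ℕ} [NeZero m] {q : ℕ} (h : Nat.Coprime q m) {σ : GQ}
    {f : ℕ} (hσ : ActsBy m σ (q ^ f)) : cycloPow m σ = primeUnit m q ^ f := by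
  apply Units.ext
  rw [(actsBy_iff m σ _).1 hσ, Units.val_pow_eq_pow_val, coe_primeUnit h, Nat.cast_pow]

theorem exists_frob_at (hK1 : CupLocSpec) (hL2 : LocalStructureSpec) (hL3 : UnramCupSpec I)
    (hL4 : CycloFrobSpec) {U : Subgroup GQ} (hU : IsOpenQ U) {m : ℕ} [NeZero m] {n : ℕ}
    [NeZero n] (χ : ↥U →* Multiplicative (ZMod n)) (hχ : IsLevelConstant₁ U.subtype χ)
    (hcyc : IsCycloChar U m χ) {a : Qbˣ} (ha : GFixed U a) (q : ℕ) [Fact q.Prime]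
    (hq : ¬ q ∣ m) (r : GQ) :
    ∃ ρ : ↥U, cycloPow m (ρ : GQ) = primeUnit m q ^ (vdeg q (locSub q r U) (locPushMul q r a)) ∧
      I.inv q (locSub q r U) (locBr q r U (gcc U n χ a)) = cvHom n (chiAdd χ ρ) := by
  have hn : n ≠ 0 := NeZero.ne n
  have hqm : Nat.Coprime q m := (Nat.Prime.coprime_iff_not_dvd (Fact.out : q.Prime)).2 hq
  obtain ⟨⟨hlc, hfix⟩, hloc⟩ := hK1 q r U n χ a hn hχ ha
  have hV : IsOpenL q (locSub q r U) := H124.isOpenL_locSub124 q hU r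
  obtain ⟨f, φ, π, hf, hφV, hφ, -, -, hdec⟩ := hL2 q (locSub q r U) hV
  obtain ⟨k, u, -, -, -, hk⟩ := hdec _ hfix
  obtain ⟨hL4a, hL4b⟩ := hL4 q m hq
  -- the local character is unramified
  have hunr : ∀ τ : ↥(locSub q r U),
      IsInertial q (τ : PadicAlgCl q ≃ₐ[ℚ_[q]] PadicAlgCl q) → (χ.comp (locHom q r U)) τ = 1 := by
    intro τ hτ
    refine hcyc (locHom q r U τ) fun ζ hζ => ?_
    have h1 : ActsBy m (localGaloisToGlobal q (τ : PadicAlgCl q ≃ₐ[ℚ_[q]] PadicAlgCl q)) 1 :=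
      fun ζ' hζ' => by
        rw [pow_one]
        exact localGaloisToGlobal_apply_root_of_fixes (hL4a _ hτ) ζ' hζ'
    have h2 := (h1.conj r) ζ hζ
    rw [pow_one] at h2
    exact h2
  have hinv := hL3 q (locSub q r U) hV n (χ.comp (locHom q r U)) hlc hunr f hf ⟨φ, hφV⟩ hφ _ hfix
    k hk
  -- the Frobenius
  have hact : ActsBy m ((locHom q r U ⟨φ, hφV⟩ : ↥U) : GQ) (q ^ f) := by
    have h1 : LActsBy q m φ (q ^ f) := hL4b φ f hφ
    exact h1.global.conj r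
  refine ⟨(locHom q r U ⟨φ, hφV⟩) ^ k, ?_, ?_⟩
  · rw [Subgroup.coe_zpow, map_zpow, cycloPow_eq_primeUnit_pow hqm hact, hk, zpow_mul,
      zpow_natCast]
  · rw [hloc, hinv, coe_mul_val_div]
    congr 1
    simp [chiAdd]

/-- The sum of the local invariants over a finite set of places above `q`. -/
theorem exists_sum_at (hK1 : CupLocSpec) (hL2 : LocalStructureSpec) (hL3 : UnramCupSpec I)
    (hL4 : CycloFrobSpec) {U : Subgroup GQ} (hU : IsOpenQ U) {m : ℕ} [NeZero m] {n : ℕ}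
    [NeZero n] (χ : ↥U →* Multiplicative (ZMod n)) (hχ : IsLevelConstant₁ U.subtype χ)
    (hcyc : IsCycloChar U m χ) {a : Qbˣ} (ha : GFixed U a) (q : ℕ) [Fact q.Prime]
    (hq : ¬ q ∣ m) (R : Finset GQ) :
    ∃ ρ : ↥U, cycloPow m (ρ : GQ) =
        primeUnit m q ^ (∑ r ∈ R, vdeg q (locSub q r U) (locPushMul q r a)) ∧
      ∑ r ∈ R, I.inv q (locSub q r U) (locBr q r U (gcc U n χ a)) = cvHom n (chiAdd χ ρ) := by
  classical
  induction R using Finset.induction_on with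
  | empty =>
    refine ⟨1, ?_, ?_⟩
    · simp
    · simp [chiAdd]
  | insert r R hr ih =>
    obtain ⟨ρ₂, h₂, h₂'⟩ := ih
    obtain ⟨ρ₁, h₁, h₁'⟩ := exists_frob_at I hK1 hL2 hL3 hL4 hU χ hχ hcyc ha q hq r
    refine ⟨ρ₁ * ρ₂, ?_, ?_⟩
    · rw [Finset.sum_insert hr, Subgroup.coe_mul, map_mul, h₁, h₂, zpow_add]
    · rw [Finset.sum_insert hr, h₁', h₂', chiAdd_mul, map_add]

end Place

end Fermat.Agent.S55.G.Rec.H414
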