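import Fermat.Agent.S55.G.Rec.RelNormH707
import Fermat.Agent.S55.G.Rec.H124.ProductFormula
import Fermat.Agent.S55.H414.CycloPow

/-!
# S55 / layer G / block REC / STEP A : actions on roots of unity  (helper414)

* `ActsBy m σ t` : `σ ∈ G_ℚ` acts on `μ_m(ℚ̄)` by `ζ ↦ ζ ^ t`;  `LActsBy q m τ t` : the same for
  `τ ∈ G_{ℚ_q}` on `μ_m(ℚ̄_q)`.
* `actsBy_iff` : `ActsBy m σ t ↔ cycloPow m σ = t` in `ZMod m`; consequences: existence of `t`,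
  invariance under conjugation, multiplicativity.
* `LActsBy.global` : `LActsBy q m τ t → ActsBy m (loc τ) t`.
* `cycW U χ q m` : the subgroup `{τ ∈ G_{ℚ_q} | ∃ σ ∈ U, χ σ = 1, σ = loc τ on μ_m(ℚ̄)}` of the
  blueprint (§1b (c)).
-/

set_option autoImplicit false

noncomputable section

namespace Fermat.Agent.S55.G.Rec.H414

open Fermat.Agent.S55.G.Rec Fermat.Agent.S55.H414

local notation "Qb" => AlgebraicClosure ℚ
local notation "GQ" => (AlgebraicClosure ℚ ≃ₐ[ℚ] AlgebraicClosure ℚ)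

/-- `σ` acts on the `m`-th roots of unity of `ℚ̄` by `ζ ↦ ζ ^ t`. -/
def ActsBy (m : ℕ) (σ : GQ) (t : ℕ) : Prop := ∀ ζ : Qb, ζ ^ m = 1 → σ ζ = ζ ^ t

theorem actsBy_iff (m : ℕ) [NeZero m] (σ : GQ) (t : ℕ) :
    ActsBy m σ t ↔ ((cycloPow m σ : (ZMod m)ˣ) : ZMod m) = (t : ZMod m) := by
  constructor
  · intro h
    exact coe_cycloPow_of_apply_eq_pow m σ t (h _ (zetaBar_spec m).pow_eq_one)
  · intro h ζ hζ
    obtain ⟨i, -, rfl⟩ := (zetaBar_spec m).eq_pow_of_pow_eq_one hζ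
    have h1 : zetaBar m ^ ((cycloPow m σ : (ZMod m)ˣ) : ZMod m).val = zetaBar m ^ t := by
      rw [pow_eq_pow_iff_natCast_eq (zetaBar_spec m), ZMod.natCast_zmod_val, h]
    rw [map_pow, cycloPow_spec, h1, ← pow_mul, ← pow_mul, mul_comm]

theorem exists_actsBy (m : ℕ) [NeZero m] (σ : GQ) : ∃ t : ℕ, ActsBy m σ t :=
  ⟨((cycloPow m σ : (ZMod m)ˣ) : ZMod m).val, (actsBy_iff m σ _).2 (ZMod.natCast_zmod_val _).symm⟩

theorem ActsBy.conj {m : ℕ} [NeZero m] {σ : GQ} {t : ℕ} (h : ActsBy m σ t) (g : GQ) :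
    ActsBy m (g * σ * g⁻¹) t := by
  rw [actsBy_iff] at h ⊢
  rw [map_mul, map_mul, map_inv, mul_comm, inv_mul_cancel_left]
  exact h

theorem ActsBy.mul {m : ℕ} {σ σ' : GQ} {t t' : ℕ} (h : ActsBy m σ t) (h' : ActsBy m σ' t') :
    ActsBy m (σ * σ') (t * t') := by
  intro ζ hζ
  have h1 : (ζ ^ t') ^ m = 1 := by rw [← pow_mul, mul_comm, pow_mul, hζ, one_pow]
  rw [AlgEquiv.mul_apply, h' ζ hζ, h _ h1, ← pow_mul, mul_comm]

theorem actsBy_one (m : ℕ) : ActsBy m 1 1 := fun ζ _ => by simp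

/-- If `σ` and `σ'` act by the same exponent they agree on `μ_m`. -/
theorem ActsBy.apply_eq {m : ℕ} {σ σ' : GQ} {t : ℕ} (h : ActsBy m σ t) (h' : ActsBy m σ' t)
    (ζ : Qb) (hζ : ζ ^ m = 1) : σ ζ = σ' ζ := by
  rw [h ζ hζ, h' ζ hζ]

theorem ActsBy.of_apply_eq {m : ℕ} {σ σ' : GQ} {t : ℕ} (h : ActsBy m σ' t)
    (h' : ∀ ζ : Qb, ζ ^ m = 1 → σ ζ = σ' ζ) : ActsBy m σ t := fun ζ hζ => by
  rw [h' ζ hζ, h ζ hζ]

section Local

variable (q : ℕ) [Fact q.Prime]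

local notation "Gq" => (PadicAlgCl q ≃ₐ[ℚ_[q]] PadicAlgCl q)

/-- `τ` acts on the `m`-th roots of unity of `ℚ̄_q` by `ζ ↦ ζ ^ t`. -/
def LActsBy (m : ℕ) (τ : Gq) (t : ℕ) : Prop := ∀ ζ : PadicAlgCl q, ζ ^ m = 1 → τ ζ = ζ ^ t

variable {q}

theorem padicEmbedding_injective414 : Function.Injective (padicEmbedding q) :=
  (padicEmbedding q).toRingHom.injective

theorem LActsBy.global {m : ℕ} {τ : Gq} {t : ℕ} (h : LActsBy q m τ t) :
    ActsBy m (localGaloisToGlobal q τ) t := by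
  intro ζ hζ
  apply padicEmbedding_injective414 (q := q)
  rw [padicEmbedding_localGaloisToGlobal, map_pow]
  exact h _ (by rw [← map_pow, hζ, map_one])

theorem LActsBy.mul {m : ℕ} {τ τ' : Gq} {t t' : ℕ} (h : LActsBy q m τ t)
    (h' : LActsBy q m τ' t') : LActsBy q m (τ * τ') (t * t') := by
  intro ζ hζ
  have h1 : (ζ ^ t') ^ m = 1 := by rw [← pow_mul, mul_comm, pow_mul, hζ, one_pow]
  rw [AlgEquiv.mul_apply, h' ζ hζ, h _ h1, ← pow_mul, mul_comm]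

theorem lActsBy_one (m : ℕ) : LActsBy q m 1 1 := fun ζ _ => by simp

/-- An element fixing `μ_m(ℚ̄_q)` pointwise induces an element fixing `μ_m(ℚ̄)` pointwise. -/
theorem localGaloisToGlobal_apply_root_of_fixes {m : ℕ} {τ : Gq}
    (h : ∀ ζ : PadicAlgCl q, ζ ^ m = 1 → τ ζ = ζ) (ζ : Qb) (hζ : ζ ^ m = 1) :
    localGaloisToGlobal q τ ζ = ζ := by
  apply padicEmbedding_injective414 (q := q)
  rw [padicEmbedding_localGaloisToGlobal]
  exact h _ (by rw [← map_pow, hζ, map_one])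

variable (q)

/-- The subgroup `W` of the blueprint: the `τ ∈ G_{ℚ_q}` which act on `μ_m(ℚ̄)` like some
`σ ∈ ker χ`. -/
def cycW (U : Subgroup GQ) {n : ℕ} (χ : ↥U →* Multiplicative (ZMod n)) (m : ℕ) : Subgroup Gq where
  carrier := {τ | ∃ σ : ↥U, χ σ = 1 ∧
    ∀ ζ : Qb, ζ ^ m = 1 → (σ : GQ) ζ = localGaloisToGlobal q τ ζ}
  one_mem' := ⟨1, map_one χ, fun ζ _ => by simp⟩
  mul_mem' := by
    rintro τ τ' ⟨σ, hσ, h⟩ ⟨σ', hσ', h'⟩
    refine ⟨σ * σ', by rw [map_mul, hσ, hσ', one_mul], fun ζ hζ => ?_⟩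
    have h1 : (localGaloisToGlobal q τ' ζ) ^ m = 1 := by rw [← map_pow, hζ, map_one]
    rw [map_mul, AlgEquiv.mul_apply, ← h _ h1, ← h' ζ hζ]
    rfl
  inv_mem' := by
    rintro τ ⟨σ, hσ, h⟩
    refine ⟨σ⁻¹, by rw [map_inv, hσ, inv_one], fun ζ hζ => ?_⟩
    have h1 : ((localGaloisToGlobal q τ)⁻¹ ζ) ^ m = 1 := by rw [← map_pow, hζ, map_one]
    have h2 := h _ h1
    rw [show localGaloisToGlobal q τ ((localGaloisToGlobal q τ)⁻¹ ζ) = ζ from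
      AlgEquiv.apply_symm_apply _ ζ] at h2
    rw [map_inv]
    have h3 : ((σ : GQ)⁻¹) ((σ : GQ) ((localGaloisToGlobal q τ)⁻¹ ζ)) =
        (localGaloisToGlobal q τ)⁻¹ ζ := AlgEquiv.symm_apply_apply _ _
    rw [h2] at h3
    exact h3

variable {q}

theorem mem_cycW {U : Subgroup GQ} {n : ℕ} {χ : ↥U →* Multiplicative (ZMod n)} {m : ℕ} {τ : Gq} :
    τ ∈ cycW q U χ m ↔ ∃ σ : ↥U, χ σ = 1 ∧
      ∀ ζ : Qb, ζ ^ m = 1 → (σ : GQ) ζ = localGaloisToGlobal q τ ζ := Iff.rfl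

/-- `W` contains every element fixing `μ_m(ℚ̄_q)`. -/
theorem mem_cycW_of_fixes (U : Subgroup GQ) {n : ℕ} (χ : ↥U →* Multiplicative (ZMod n)) {m : ℕ}
    {τ : Gq} (h : ∀ ζ : PadicAlgCl q, ζ ^ m = 1 → τ ζ = ζ) : τ ∈ cycW q U χ m :=
  ⟨1, map_one χ, fun ζ hζ => by
    rw [localGaloisToGlobal_apply_root_of_fixes h ζ hζ]; rfl⟩

/-- `W` contains the kernel of every localisation of `χ`. -/
theorem ker_map_le_cycW (U : Subgroup GQ) {n : ℕ} (χ : ↥U →* Multiplicative (ZMod n)) (m : ℕ)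
    [NeZero m] (g : GQ) :
    (χ.comp (locHom q g U)).ker.map (locSub q g U).subtype ≤ cycW q U χ m := by
  rintro _ ⟨τ, hτ, rfl⟩
  refine ⟨locHom q g U τ, hτ, fun ζ hζ => ?_⟩
  obtain ⟨t, ht⟩ := exists_actsBy m (localGaloisToGlobal q (τ : Gq))
  exact (ht.conj g).apply_eq ht ζ hζ

/-- An element of `W` acting on `μ_m(ℚ̄_q)` by `t` gives an element of `ker χ` acting on `μ_m(ℚ̄)`
by `t`. -/
theorem exists_of_mem_cycW {U : Subgroup GQ} {n : ℕ} {χ : ↥U →* Multiplicative (ZMod n)} {m : ℕ}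
    {τ : Gq} (hτ : τ ∈ cycW q U χ m) {t : ℕ} (ht : LActsBy q m τ t) :
    ∃ σ : ↥U, χ σ = 1 ∧ ActsBy m (σ : GQ) t := by
  obtain ⟨σ, hσ, h⟩ := hτ
  exact ⟨σ, hσ, ht.global.of_apply_eq h⟩

end Local

end Fermat.Agent.S55.G.Rec.H414
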