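import Fermat.Agent.S55.G.Rec.SAH414.NormL
import Fermat.Agent.S55.G.Rec.SAH414.Arith
import Fermat.Agent.S55.G.Rec.Final

/-!
# S55 / layer G / block REC : STEP A (`CycloSumSpec`)  (helper414)

`cycloSum_of (K1) (K5) (L2) (L3) (L4) (L5) (G1) (G1b) : CycloSumSpec I`.
-/

set_option autoImplicit false
set_option linter.style.haveILetI false

noncomputable section

namespace Fermat.Agent.S55.G.Rec.H414

open groupCohomology Fermat.Agent.S55.G.Rec Fermat.Agent.S55.H414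

local notation "Qb" => AlgebraicClosure ℚ
local notation "GQ" => (AlgebraicClosure ℚ ≃ₐ[ℚ] AlgebraicClosure ℚ)

/-- A character which is cyclotomic mod `m` kills the kernel of the cyclotomic character. -/
theorem chi_eq_one_of_cycloPow {U : Subgroup GQ} {m : ℕ} [NeZero m] {n : ℕ}
    {χ : ↥U →* Multiplicative (ZMod n)} (hcyc : IsCycloChar U m χ) {σ : ↥U}
    (h : cycloPow m (σ : GQ) = 1) : χ σ = 1 := by
  refine hcyc σ fun ζ hζ => ?_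
  have h1 : ActsBy m (σ : GQ) 1 := (actsBy_iff m _ 1).2 (by rw [h, Units.val_one, Nat.cast_one])
  have h2 := h1 ζ hζ
  rwa [pow_one] at h2

/-- A character of odd order which is cyclotomic mod `m` kills the elements acting by `±1`. -/
theorem chi_eq_one_of_sq {U : Subgroup GQ} {m : ℕ} [NeZero m] {n : ℕ} (hn : Odd n)
    {χ : ↥U →* Multiplicative (ZMod n)} (hcyc : IsCycloChar U m χ) {σ : ↥U}
    (h : cycloPow m (σ : GQ) ^ 2 = 1) : χ σ = 1 := by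
  have h1 : χ (σ ^ 2) = 1 := by
    apply chi_eq_one_of_cycloPow hcyc
    rw [Subgroup.coe_pow, map_pow, h]
  rw [map_pow] at h1
  have h2 : (2 : ℕ) • Multiplicative.toAdd (χ σ) = 0 := by
    have := congrArg Multiplicative.toAdd h1
    simpa using this
  have h3 : IsUnit ((2 : ℕ) : ZMod n) :=
    (ZMod.isUnit_iff_coprime 2 n).2 (Nat.coprime_two_left.2 hn)
  have h4 : ((2 : ℕ) : ZMod n) * Multiplicative.toAdd (χ σ) = 0 := by
    rw [← nsmul_eq_mul]; exact h2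
  have h5 : Multiplicative.toAdd (χ σ) = 0 := by
    have := h3.mul_right_eq_zero.1 h4
    exact this
  exact Multiplicative.toAdd.injective h5

section Main

variable (I : LocalInvSystem)

/-- the sum of the local invariants over the places above `q` -/
def placeSum (U : Subgroup GQ) (R : Nat.Primes → Finset GQ) (x : gBr U) (q : Nat.Primes) :
    AddCircle (1 : ℚ) :=
  ∑ r ∈ R q, I.invAt q r U x

theorem sumInv_eq_finsum (U : Subgroup GQ) (R : Nat.Primes → Finset GQ) (x : gBr U) :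
    I.sumInv U R x = ∑ᶠ q : Nat.Primes, placeSum I U R x q := rfl

theorem invAt_eq (q : Nat.Primes) (g : GQ) (U : Subgroup GQ) (x : gBr U) :
    I.invAt q g U x =
      @LocalInvSystem.inv I (q : ℕ) ⟨q.2⟩ (@locSub (q : ℕ) ⟨q.2⟩ g U)
        (@locBr (q : ℕ) ⟨q.2⟩ g U x) := rfl

variable {I}

/-- per prime `q ≠ ℓ` -/
theorem exists_placeSum (hK1 : CupLocSpec) (hL2 : LocalStructureSpec) (hL3 : UnramCupSpec I)
    (hL4 : CycloFrobSpec) (hG1b : ProductFormulaSpec) {U : Subgroup GQ} (hU : IsOpenQ U)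
    {m : ℕ} [NeZero m] {n : ℕ} [NeZero n] (χ : ↥U →* Multiplicative (ZMod n))
    (hχ : IsLevelConstant₁ U.subtype χ) (hcyc : IsCycloChar U m χ) {a : Qbˣ} (ha : GFixed U a)
    {y : ℚˣ} (hy : ((relNorm U a : Qbˣ) : Qb) = algebraMap ℚ Qb (y : ℚ))
    {R : Nat.Primes → Finset GQ} (hR : IsPlaceReps U R) (q : Nat.Primes) (hq : ¬ (q : ℕ) ∣ m) :
    ∃ ρ : ↥U, cycloPow m (ρ : GQ) = primeUnit m (q : ℕ) ^ padicValRat (q : ℕ) (y : ℚ) ∧
      placeSum I U R (gcc U n χ a) q = cvHom n (chiAdd χ ρ) := by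
  haveI : Fact (q : ℕ).Prime := ⟨q.2⟩
  obtain ⟨ρ, h1, h2⟩ := exists_sum_at I hK1 hL2 hL3 hL4 hU χ hχ hcyc ha (q : ℕ) hq (R q)
  refine ⟨ρ, ?_, ?_⟩
  · rw [h1, hG1b U hU a ha y hy (q : ℕ) (R q) (hR q)]
  · exact h2

/-- over a finite set of primes `≠ ℓ` -/
theorem exists_finsetSum (hK1 : CupLocSpec) (hL2 : LocalStructureSpec) (hL3 : UnramCupSpec I)
    (hL4 : CycloFrobSpec) (hG1b : ProductFormulaSpec) {U : Subgroup GQ} (hU : IsOpenQ U)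
    {m : ℕ} [NeZero m] {n : ℕ} [NeZero n] (χ : ↥U →* Multiplicative (ZMod n))
    (hχ : IsLevelConstant₁ U.subtype χ) (hcyc : IsCycloChar U m χ) {a : Qbˣ} (ha : GFixed U a)
    {y : ℚˣ} (hy : ((relNorm U a : Qbˣ) : Qb) = algebraMap ℚ Qb (y : ℚ))
    {R : Nat.Primes → Finset GQ} (hR : IsPlaceReps U R) (S : Finset Nat.Primes)
    (hS : ∀ q ∈ S, ¬ (q : ℕ) ∣ m) :
    ∃ ρ : ↥U, cycloPow m (ρ : GQ) = ∏ q ∈ S, primeUnit m (q : ℕ) ^ padicValRat (q : ℕ) (y : ℚ) ∧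
      ∑ q ∈ S, placeSum I U R (gcc U n χ a) q = cvHom n (chiAdd χ ρ) := by
  classical
  induction S using Finset.induction_on with
  | empty =>
    refine ⟨1, ?_, ?_⟩
    · simp
    · simp [chiAdd]
  | insert q S hq ih =>
    obtain ⟨ρ₂, h₂, h₂'⟩ := ih fun q' hq' => hS q' (Finset.mem_insert_of_mem hq')
    obtain ⟨ρ₁, h₁, h₁'⟩ := exists_placeSum hK1 hL2 hL3 hL4 hG1b hU χ hχ hcyc ha hy hR q
      (hS q (Finset.mem_insert_self q S))
    refine ⟨ρ₁ * ρ₂, ?_, ?_⟩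
    · rw [Finset.prod_insert hq, Subgroup.coe_mul, map_mul, h₁, h₂]
    · rw [Finset.sum_insert hq, h₁', h₂', chiAdd_mul, map_add]

/-- the primes `≠ ℓ` in the support of `y` form a finite set -/
theorem finite_primes_padicValRat_ne_zero (ℓ : ℕ) (y : ℚ) (hy : y ≠ 0) :
    {q : Nat.Primes | (q : ℕ) ≠ ℓ ∧ padicValRat (q : ℕ) y ≠ 0}.Finite := by
  have hA : y.num.natAbs ≠ 0 := Int.natAbs_ne_zero.2 (Rat.num_ne_zero.2 hy)
  have hB : y.den ≠ 0 := y.den_nz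
  refine Set.Finite.subset (Set.Finite.preimage (Subtype.val_injective.injOn)
    (Finset.finite_toSet (y.num.natAbs * y.den).primeFactors)) ?_
  rintro q ⟨-, hq⟩
  rw [Set.mem_preimage, Finset.mem_coe, Nat.mem_primeFactors]
  refine ⟨q.2, ?_, mul_ne_zero hA hB⟩
  by_contra hnd
  apply hq
  have h1 : ¬ (q : ℕ) ∣ y.num.natAbs := fun h => hnd (Dvd.dvd.mul_right h _)
  have h2 : ¬ (q : ℕ) ∣ y.den := fun h => hnd (Dvd.dvd.mul_left h _)
  rw [padicValRat_eq_sub, padicValNat.eq_zero_of_not_dvd h1, padicValNat.eq_zero_of_not_dvd h2]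
  simp

/-- transfer of the approximation from `ℚ̄_ℓ` to `ℚ` -/
theorem padicNorm_le_of_norm_le {ℓ : ℕ} [Fact ℓ.Prime] (w : ℚ) (j : ℤ)
    (h : ‖algebraMap ℚ (PadicAlgCl ℓ) w‖ ≤ ‖(ℓ : PadicAlgCl ℓ)‖ ^ j) :
    padicNorm ℓ w ≤ (ℓ : ℚ) ^ (-j) := by
  have h1 : ‖algebraMap ℚ (PadicAlgCl ℓ) w‖ = ((padicNorm ℓ w : ℚ) : ℝ) := by
    have : algebraMap ℚ (PadicAlgCl ℓ) w = algebraMap ℚ_[ℓ] (PadicAlgCl ℓ) (w : ℚ_[ℓ]) := by
      rw [eq_ratCast, map_ratCast]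
    rw [this, PadicAlgCl.norm_extends, Padic.eq_padicNorm]
  have h2 : ‖(ℓ : PadicAlgCl ℓ)‖ = ((ℓ : ℝ))⁻¹ := by
    have : (ℓ : PadicAlgCl ℓ) = algebraMap ℚ_[ℓ] (PadicAlgCl ℓ) (ℓ : ℚ_[ℓ]) := by simp
    rw [this, PadicAlgCl.norm_extends, Padic.norm_p]
  rw [h1, h2, inv_zpow, ← zpow_neg] at h
  have h3 : ((padicNorm ℓ w : ℚ) : ℝ) ≤ (((ℓ : ℚ) ^ (-j) : ℚ) : ℝ) := by
    rw [Rat.cast_zpow, Rat.cast_natCast]
    exact h
  exact Rat.cast_le.1 h3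

theorem locBr_eq_zero_of_eq {ℓ : ℕ} [Fact ℓ.Prime] {U : Subgroup GQ} {x : gBr U}
    (h0 : ∀ g : GQ, locBr ℓ g U x = 0) (q : ℕ) [Fact q.Prime] (hql : q = ℓ) (g : GQ) :
    locBr q g U x = 0 := by
  subst hql
  exact h0 g

/-- **STEP A** : the cyclotomic sum formula. -/
theorem cycloSum_of (I : LocalInvSystem) (hK1 : CupLocSpec) (hK5 : LocalNormSpec)
    (hL2 : LocalStructureSpec) (hL3 : UnramCupSpec I) (hL4 : CycloFrobSpec)
    (hL5 : LocalCycloNormSpec) (hG1 : OrbitNormSpec) (hG1b : ProductFormulaSpec) :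
    CycloSumSpec I := by
  intro U hU ℓ _ hℓ e he n hodd χ hχ hcyc a ha h0 R hR
  have hℓp : ℓ.Prime := Fact.out
  have hn : n ≠ 0 := by
    rintro rfl
    obtain ⟨j, hj⟩ := hodd
    omega
  haveI : NeZero n := ⟨hn⟩
  haveI : NeZero (ℓ ^ e) := ⟨pow_ne_zero _ hℓp.ne_zero⟩
  obtain ⟨y, hy⟩ := (hG1 U hU a ha).1
  have hy0 : (y : ℚ) ≠ 0 := y.ne_zero
  obtain ⟨k, s, t, σT, hσT, hact, htℓ, happ⟩ :=
    cycloNormAtL_of hK1 hK5 hL5 hG1 U hU ℓ hℓ e he n hn χ hχ a ha h0 y hy (R ⟨ℓ, hℓp⟩)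
      (hR ⟨ℓ, hℓp⟩)
  -- the approximation in `ℚ`
  have happ' : padicNorm ℓ ((y : ℚ) - ((s : ℤ) : ℚ) * (ℓ : ℚ) ^ k * (t : ℚ)) ≤
      (ℓ : ℚ) ^ (-(k + e)) := by
    apply padicNorm_le_of_norm_le
    have h1 : algebraMap ℚ (PadicAlgCl ℓ) ((y : ℚ) - ((s : ℤ) : ℚ) * (ℓ : ℚ) ^ k * (t : ℚ)) =
        algebraMap ℚ (PadicAlgCl ℓ) (y : ℚ) -
          ((s : ℤ) : PadicAlgCl ℓ) * (ℓ : PadicAlgCl ℓ) ^ k * (t : PadicAlgCl ℓ) := by
      rw [map_sub, map_mul, map_mul, map_zpow₀, map_intCast, map_natCast, map_natCast]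
    rw [h1]
    exact happ
  -- the finite set of primes
  have hfin := finite_primes_padicValRat_ne_zero ℓ (y : ℚ) hy0
  have hSmem : ∀ q : Nat.Primes, q ∈ hfin.toFinset ↔
      (q : ℕ) ≠ ℓ ∧ padicValRat (q : ℕ) (y : ℚ) ≠ 0 := fun q => Set.Finite.mem_toFinset hfin
  have hSℓ : ∀ q ∈ hfin.toFinset, (q : ℕ) ≠ ℓ := fun q hq => ((hSmem q).1 hq).1
  have hndvd : ∀ q : Nat.Primes, (q : ℕ) ≠ ℓ → ¬ (q : ℕ) ∣ ℓ ^ e := fun q hq hd =>
    hq ((Nat.prime_dvd_prime_iff_eq q.2 hℓp).1 (q.2.dvd_of_dvd_pow hd))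
  -- the support of the place sums
  have hsupp : Function.support (placeSum I U R (gcc U n χ a)) ⊆ ↑hfin.toFinset := by
    intro q hq
    by_contra hqS
    apply hq
    by_cases hql : (q : ℕ) = ℓ
    · refine Finset.sum_eq_zero fun r _ => ?_
      apply I.invAt_eq_zero
      haveI : Fact (q : ℕ).Prime := ⟨q.2⟩
      exact locBr_eq_zero_of_eq h0 (q : ℕ) hql r
    · have hv : padicValRat (q : ℕ) (y : ℚ) = 0 := by
        by_contra h
        exact hqS (Finset.mem_coe.2 ((hSmem q).2 ⟨hql, h⟩))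
      obtain ⟨ρ, h1, h2⟩ := exists_placeSum (I := I) hK1 hL2 hL3 hL4 hG1b hU χ hχ hcyc ha hy hR q
        (hndvd q hql)
      rw [hv, zpow_zero] at h1
      have h3 : χ ρ = 1 := chi_eq_one_of_cycloPow hcyc h1
      rw [h2]
      simp [chiAdd, h3]
  rw [sumInv_eq_finsum, finsum_eq_sum_of_support_subset _ hsupp]
  obtain ⟨ρ, h1, h2⟩ := exists_finsetSum (I := I) hK1 hL2 hL3 hL4 hG1b hU χ hχ hcyc ha hy hR
    hfin.toFinset (fun q hq => hndvd q (hSℓ q hq))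
  rw [h2]
  obtain ⟨ε, hε⟩ := prod_primeUnit_eq ℓ (y : ℚ) hy0 k s t htℓ he happ' hfin.toFinset
    (fun q hq hv => (hSmem q).2 ⟨hq, hv⟩) hSℓ
  have hT : ((cycloPow (ℓ ^ e) (σT : GQ) : (ZMod (ℓ ^ e))ˣ) : ZMod (ℓ ^ e)) =
      (t : ZMod (ℓ ^ e)) := (actsBy_iff _ _ t).1 hact
  have hρ : ((cycloPow (ℓ ^ e) (ρ : GQ) : (ZMod (ℓ ^ e))ˣ) : ZMod (ℓ ^ e)) =
      ((ε : ℤ) : ZMod (ℓ ^ e)) * (t : ZMod (ℓ ^ e)) := by
    rw [h1]
    exact hε
  have hδ : cycloPow (ℓ ^ e) ((ρ * σT⁻¹ : ↥U) : GQ) ^ 2 = 1 := by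
    apply Units.ext
    rw [Subgroup.coe_mul, Subgroup.coe_inv, map_mul, map_inv, Units.val_pow_eq_pow_val,
      Units.val_mul, hρ, ← hT, mul_assoc, Units.mul_inv, mul_one, Units.val_one]
    rcases Int.units_eq_one_or ε with rfl | rfl <;> simp
  have hχδ : χ (ρ * σT⁻¹) = 1 := chi_eq_one_of_sq hodd hcyc hδ
  have hχρ : χ ρ = 1 := by
    rw [map_mul, map_inv, hσT, inv_one, mul_one] at hχδ
    exact hχδ
  simp [chiAdd, hχρ]

end Main

end Fermat.Agent.S55.G.Rec.H414
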